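import Fermat.Agent.LT.T7.H209.LtrTop

/-!
# Row LT, tower T7, leaves EKPROD-DOWN (helper209): the generic statement, any `K_∞`-type

OFF-MAIN, ADDITIVE (all names end in `209`).  Nothing assumed.

`IsRTT209 τ 𝔑 φ` = the clauses of `T5.IsTestFn 𝔑 τ φ` except `ktype` and the left invariance
under the level group; stable under left translation by elements which are trivial at the
infinite places, finite sums and scalar multiples.

    isEKTestT_regL209 : regL u z H k m f₂ is an Eisenstein-killing test function of level `𝔑`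
                        and type `τ` with Eisenstein-killing adjoint
    isEKProdT_down209 : the statement `L2Q.IsEKProdT τ 𝔑 R (F₁ ⋆ regL u z H k m f₂)`, unfolded
    isEKProd_down209  : IsEKProd 𝔑 R (F₁ ⋆ regL u z H k m f₂)         (trivial type)

for ONE number field, a frame, a level `𝔑 ≠ 0`, a place `u ∣ 𝔑`, an Iwahori coset system `H` and
a scalar uniformiser `z` at `u`, `f₂` an Eisenstein-killing test function of level `𝔑` and type
`τ` with `H893.IsUInv 𝔑 1 (fun _ => u) f₂`.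
-/

set_option autoImplicit false

open AutomorphicForm IsDedekindDomain NumberField MeasureTheory
open scoped ComplexConjugate

noncomputable section

namespace Fermat.Agent.LT.T7.H209

open Fermat.Agent.LT.H556 Fermat.Agent.LT.H556.A0 Fermat.Agent.LT.T7

attribute [local instance] Fermat.Agent.LT.T5.instMeasurableSpaceG

variable {K : Type} [Field K] [NumberField K]

/-- The clauses of `T5.IsTestFn 𝔑 τ φ` except `ktype` and `level_left`. -/
structure IsRTT209 (τ : G K → ℂ) (𝔑 : Ideal (𝓞 K)) (φ : G K → ℂ) : Prop where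
  cont : Continuous φ
  supp : HasCompactSupport φ
  smooth : T5.IsSmoothAtInf φ
  level_right : ∀ u : G K, InLevelGroup 𝔑 u → ∀ g : G K, φ (g * u) = φ g
  arch_right : ∀ (w : InfinitePlace K) (k : G K), IsArchCompact w k →
    ∀ g : G K, φ (g * k) = (τ k)⁻¹ * φ g
  arch_left : ∀ (w : InfinitePlace K) (k : G K), IsArchCompact w k →
    ∀ g : G K, φ (k * g) = (τ k)⁻¹ * φ g

variable {τ : G K → ℂ}

theorem isRTT_of_isTestFn209 {𝔑 : Ideal (𝓞 K)} {φ : G K → ℂ} (h : T5.IsTestFn 𝔑 τ φ) :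
    IsRTT209 τ 𝔑 φ where
  cont := h.cont
  supp := h.supp
  smooth := h.smooth
  level_right := h.inv.level_right
  arch_right := h.inv.arch_right
  arch_left := h.inv.arch_left

theorem isTestFn_of_isRTT209 {𝔑 : Ideal (𝓞 K)} {φ : G K → ℂ} (hk : T5.IsKType τ)
    (h : IsRTT209 τ 𝔑 φ) (hl : ∀ u : G K, InLevelGroup 𝔑 u → ∀ g : G K, φ (u * g) = φ g) :
    T5.IsTestFn 𝔑 τ φ where
  ktype := hk
  cont := h.cont
  supp := h.supp
  smooth := h.smooth
  inv :=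
    { level_right := h.level_right
      level_left := hl
      arch_right := h.arch_right
      arch_left := h.arch_left }

theorem isRTT_ltr209 {𝔑 : Ideal (𝓞 K)} {b : G K} (hb : TrivInf209 b) {φ : G K → ℂ}
    (h : IsRTT209 τ 𝔑 φ) : IsRTT209 τ 𝔑 (H893.ltr b φ) where
  cont := continuous_ltr209 b h.cont
  supp := hasCompactSupport_ltr209 b h.supp
  smooth := fun n f hf hs g => by
    have := h.smooth n f hf hs (b⁻¹ * g)
    have e : (fun t => H893.ltr b φ (g * f t)) = fun t => φ (b⁻¹ * g * f t) := by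
      funext t
      rw [ltr_apply209, mul_assoc]
    rw [e]
    exact this
  level_right := fun u hu g => by
    rw [ltr_apply209, ltr_apply209, ← mul_assoc, h.level_right u hu]
  arch_right := fun w k hk g => by
    rw [ltr_apply209, ltr_apply209, ← mul_assoc, h.arch_right w k hk]
  arch_left := fun w k hk g => by
    rw [ltr_apply209, ltr_apply209, ← mul_assoc, comm_of_trivInf209 (trivInf_inv209 hb) hk.1,
      mul_assoc, h.arch_left w k hk]

theorem isRTT_sum209 {𝔑 : Ideal (𝓞 K)} {ι : Type} (s : Finset ι) (φ : ι → G K → ℂ)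
    (h : ∀ i ∈ s, IsRTT209 τ 𝔑 (φ i)) : IsRTT209 τ 𝔑 (fun y => ∑ i ∈ s, φ i y) where
  cont := continuous_finsetSum s fun i hi => (h i hi).cont
  supp := hasCompactSupport_sum209 s φ fun i hi => (h i hi).supp
  smooth := fun n f hf hs g =>
    ContDiff.sum fun i hi => (h i hi).smooth n f hf hs g
  level_right := fun u hu g =>
    Finset.sum_congr rfl fun i hi => (h i hi).level_right u hu g
  arch_right := fun w k hk g => by
    show ∑ i ∈ s, φ i (g * k) = (τ k)⁻¹ * ∑ i ∈ s, φ i g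
    rw [Finset.mul_sum]
    exact Finset.sum_congr rfl fun i hi => (h i hi).arch_right w k hk g
  arch_left := fun w k hk g => by
    show ∑ i ∈ s, φ i (k * g) = (τ k)⁻¹ * ∑ i ∈ s, φ i g
    rw [Finset.mul_sum]
    exact Finset.sum_congr rfl fun i hi => (h i hi).arch_left w k hk g

theorem isRTT_const_mul209 {𝔑 : Ideal (𝓞 K)} (c : ℂ) {φ : G K → ℂ} (h : IsRTT209 τ 𝔑 φ) :
    IsRTT209 τ 𝔑 (fun y => c * φ y) where
  cont := continuous_const.mul h.cont
  supp := h.supp.mul_left (f := fun _ => c)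
  smooth := fun n f hf hs g => contDiff_const.mul (h.smooth n f hf hs g)
  level_right := fun u hu g => by
    show c * φ (g * u) = c * φ g
    rw [h.level_right u hu]
  arch_right := fun w k hk g => by
    show c * φ (g * k) = (τ k)⁻¹ * (c * φ g)
    rw [h.arch_right w k hk, mul_left_comm]
  arch_left := fun w k hk g => by
    show c * φ (k * g) = (τ k)⁻¹ * (c * φ g)
    rw [h.arch_left w k hk, mul_left_comm]

theorem isRTT_lsum209 {𝔑 : Ideal (𝓞 K)} {H : Finset (G K)} (hH : ∀ h ∈ H, TrivInf209 h)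
    {φ : G K → ℂ} (h : IsRTT209 τ 𝔑 φ) : IsRTT209 τ 𝔑 (H893.lsum H φ) := by
  rw [lsum_eq_sum_ltr209]
  exact isRTT_sum209 H (fun b => H893.ltr b φ) fun b hb => isRTT_ltr209 (hH b hb) h

theorem isRTT_iwL209 {𝔑 : Ideal (𝓞 K)} (w : HeightOneSpectrum (𝓞 K)) {H : Finset (G K)}
    (hH : ∀ h ∈ H, TrivInf209 h) {φ : G K → ℂ} (h : IsRTT209 τ 𝔑 φ) :
    IsRTT209 τ 𝔑 (H893.iwL w H φ) := by
  rw [iwL_eq209]
  exact isRTT_const_mul209 _ (isRTT_lsum209 hH h)

theorem isRTT_iwL_iterate209 {𝔑 : Ideal (𝓞 K)} (w : HeightOneSpectrum (𝓞 K))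
    {H : Finset (G K)} (hH : ∀ h ∈ H, TrivInf209 h) {φ : G K → ℂ} (h : IsRTT209 τ 𝔑 φ)
    (m : ℕ) : IsRTT209 τ 𝔑 ((H893.iwL w H)^[m] φ) := by
  induction m with
  | zero => exact h
  | succ m ih =>
    rw [Function.iterate_succ_apply']
    exact isRTT_iwL209 w hH ih

theorem isRTT_regL209 {𝔑 : Ideal (𝓞 K)} (w : HeightOneSpectrum (𝓞 K)) {z : G K}
    (hz : TrivInf209 z) {H : Finset (G K)} (hH : ∀ h ∈ H, TrivInf209 h) (k : ℤ) (m : ℕ)
    {φ : G K → ℂ} (h : IsRTT209 τ 𝔑 φ) : IsRTT209 τ 𝔑 (H893.regL w z H k m φ) := by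
  rw [regL_eq209]
  exact isRTT_ltr209 (trivInf_zpow209 hz k) (isRTT_iwL_iterate209 w hH h m)

/-- **The second factor of the members downstairs** is an Eisenstein-killing test function of
type `τ` with Eisenstein-killing adjoint. -/
theorem isEKTestT_regL209 {μ : Measure (G K)} {F : Set (G K)} (hF : T5.IsFrame μ F)
    {𝔑 : Ideal (𝓞 K)} {u : HeightOneSpectrum (𝓞 K)} (hu : u.asIdeal ∣ 𝔑)
    {H : Finset (G K)} (hH : IsIwCosetSystem u H) {z : G K} (hz : IsScalarUniformizerAt u z)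
    {f₂ : G K → ℂ} (ht : T5.IsTestFn 𝔑 τ f₂)
    (hek : T5.IsEK μ f₂ ∧ T5.IsEK μ (T5.adjointFn f₂))
    (hinv : H893.IsUInv 𝔑 1 (fun _ => u) f₂) (k : ℤ) (m : ℕ) :
    T5.IsTestFn 𝔑 τ (H893.regL u z H k m f₂) ∧ T5.IsEK μ (H893.regL u z H k m f₂) ∧
      T5.IsEK μ (T5.adjointFn (H893.regL u z H k m f₂)) := by
  have hHT : ∀ h ∈ H, TrivInf209 h := fun h hh => (hH.2.1 h hh).1.1
  have hzT : TrivInf209 z := hz.1.1
  have hRT : IsRTT209 τ 𝔑 (H893.regL u z H k m f₂) :=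
    isRTT_regL209 u hzT hHT k m (isRTT_of_isTestFn209 ht)
  have hL := (isLInv_regL209 (l := 1) (o := fun _ => u) Nat.one_pos hu hH hz k m
    (isLInv_of_isUInv209 hinv)).1
  have hEK : IsEKC209 μ (H893.regL u z H k m f₂) :=
    isEKC_regL209 hF u z H k m ⟨ht.cont, ht.supp, hek.1, hek.2⟩
  exact ⟨isTestFn_of_isRTT209 ht.ktype hRT hL, hEK.2.2.1, hEK.2.2.2⟩

/-- **The members downstairs are products of two Eisenstein-killing test functions of type
`τ`.** -/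
theorem isEKProdT_down209 {R : Frame5 K} (hR : IsFrame5 R) {𝔑 : Ideal (𝓞 K)} (hne : 𝔑 ≠ ⊥)
    {u : HeightOneSpectrum (𝓞 K)} (hu : u.asIdeal ∣ 𝔑)
    {H : Finset (G K)} (hH : IsIwCosetSystem u H) {z : G K} (hz : IsScalarUniformizerAt u z)
    {F₁ f₂ : G K → ℂ} (ht₁ : T5.IsTestFn 𝔑 τ F₁)
    (hek₁ : T5.IsEK R.μ F₁ ∧ T5.IsEK R.μ (T5.adjointFn F₁))
    (ht : T5.IsTestFn 𝔑 τ f₂)
    (hek : T5.IsEK R.μ f₂ ∧ T5.IsEK R.μ (T5.adjointFn f₂))
    (hinv : H893.IsUInv 𝔑 1 (fun _ => u) f₂) (k : ℤ) (m : ℕ) :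
    T5.IsTestFn 𝔑 τ (T5.conv R.μ F₁ (H893.regL u z H k m f₂)) ∧
      ∃ φ₁ φ₂ : G K → ℂ, T5.IsTestFn 𝔑 τ φ₁ ∧ T5.IsTestFn 𝔑 τ φ₂ ∧
        T5.IsEK R.μ φ₁ ∧ T5.IsEK R.μ (T5.adjointFn φ₁) ∧
        T5.IsEK R.μ φ₂ ∧ T5.IsEK R.μ (T5.adjointFn φ₂) ∧
        T5.conv R.μ F₁ (H893.regL u z H k m f₂) = T5.conv R.μ φ₁ φ₂ := by
  obtain ⟨h1, h2, h3⟩ := isEKTestT_regL209 hR.frame hu hH hz ht hek hinv k m
  exact ⟨H872.isTestFn_conv872 hR.frame.haar hne ht₁ h1, F₁, _, ht₁, h1, hek₁.1, hek₁.2, h2, h3,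
    rfl⟩

/-- The same for the trivial type. -/
theorem isEKProd_down209 {R : Frame5 K} (hR : IsFrame5 R) {𝔑 : Ideal (𝓞 K)} (hne : 𝔑 ≠ ⊥)
    {u : HeightOneSpectrum (𝓞 K)} (hu : u.asIdeal ∣ 𝔑)
    {H : Finset (G K)} (hH : IsIwCosetSystem u H) {z : G K} (hz : IsScalarUniformizerAt u z)
    {F₁ f₂ : G K → ℂ} (ht₁ : T5.IsTestFn 𝔑 T5.trivType F₁)
    (hek₁ : T5.IsEK R.μ F₁ ∧ T5.IsEK R.μ (T5.adjointFn F₁))
    (ht : T5.IsTestFn 𝔑 T5.trivType f₂)
    (hek : T5.IsEK R.μ f₂ ∧ T5.IsEK R.μ (T5.adjointFn f₂))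
    (hinv : H893.IsUInv 𝔑 1 (fun _ => u) f₂) (k : ℤ) (m : ℕ) :
    IsEKProd 𝔑 R (T5.conv R.μ F₁ (H893.regL u z H k m f₂)) :=
  isEKProdT_down209 hR hne hu hH hz ht₁ hek₁ ht hek hinv k m

end Fermat.Agent.LT.T7.H209

end
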