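import Fermat.Agent.LT.T7.H209.LtrTest
import Fermat.Agent.LT.T2.H724.IdealCl

/-!
# Row LT, tower T7, leaves EKPROD-UP (helper209): left invariance of the sums of left translates

OFF-MAIN, ADDITIVE (all names end in `209`).  Vocabulary: A0, `T5/Spec.lean` v4,
`T7/Level2.lean`, `T7/H893/SupplyFamSpec.lean`; Iwahori kit of helper83, local embeddings of
helper129, `idealClosure` of helper724.  Nothing assumed.

* the level group `U(𝔫)` is a group, `U(𝔫) ⊆ U(𝔫₀)` for `𝔫 ≤ 𝔫₀`, and the component at `w ∣ 𝔫`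
  of an element of `U(𝔫)` lies in the Iwahori subgroup;
* `IsLInv209 𝔫₀ l o φ` (the left half of `H893.IsUInv`) is preserved by `iwL (o 0) H` (`H` an
  Iwahori coset system at `o 0`, `o 0 ∣ 𝔫₀`: the coset system is permuted) and by the left
  translations by central elements;
* `lsum Hg χ` is left `U(𝔫₀)`-invariant if `χ` is and `Hg` is a system of representatives of
  `U(𝔫₀) g U(𝔫₀) / U(𝔫₀)`.
-/

set_option autoImplicit false

open AutomorphicForm IsDedekindDomain NumberField MeasureTheory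
open scoped ComplexConjugate

noncomputable section

namespace Fermat.Agent.LT.T7.H209

open Fermat.Agent.LT.H556 Fermat.Agent.LT.H556.A0 Fermat.Agent.LT.T7 Fermat.Agent.LT.H129
  Fermat.Agent.LT.T2.H724 Fermat.Agent.LT.T1.H724

variable {K : Type} [Field K] [NumberField K]

/-! ## The level group -/

theorem finComp_mul209 (v : HeightOneSpectrum (𝓞 K)) (g h : G K) :
    finComp v (g * h) = finComp v g * finComp v h := by
  rw [← coe_finCompHom129, map_mul]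
  rfl

theorem inLevelGroup_inv209 {𝔫 : Ideal (𝓞 K)} {u : G K} (hu : InLevelGroup 𝔫 u) :
    InLevelGroup 𝔫 u⁻¹ :=
  ⟨trivInf_inv209 hu.1, fun v i j => ⟨(hu.2 v i j).2, by rw [inv_inv]; exact (hu.2 v i j).1⟩⟩

theorem sub_one_mul209 {R : Type} [Ring R] (A B : Matrix (Fin 2) (Fin 2) R) :
    A * B - 1 = (A - 1) * (B - 1) + (A - 1) + (B - 1) := by
  noncomm_ring

theorem mem_mul_idealClosure209 (𝔫 : Ideal (𝓞 K)) (v : HeightOneSpectrum (𝓞 K))
    {A B : Matrix (Fin 2) (Fin 2) (v.adicCompletion K)}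
    (hA : ∀ i j, (A - 1) i j ∈ idealClosure 𝔫 v) (hB : ∀ i j, (B - 1) i j ∈ idealClosure 𝔫 v)
    (i j : Fin 2) : (A * B - 1) i j ∈ idealClosure 𝔫 v := by
  rw [sub_one_mul209, Matrix.add_apply, Matrix.add_apply, Matrix.mul_apply, Fin.sum_univ_two]
  exact add_mem_idealClosure724 v 𝔫
    (add_mem_idealClosure724 v 𝔫
      (add_mem_idealClosure724 v 𝔫 (mul_mem_idealClosure724 v 𝔫 (hA i 0) (hB 0 j))
        (mul_mem_idealClosure724 v 𝔫 (hA i 1) (hB 1 j)))
      (hA i j)) (hB i j)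

theorem inLevelGroup_mul209 {𝔫 : Ideal (𝓞 K)} {u u' : G K} (hu : InLevelGroup 𝔫 u)
    (hu' : InLevelGroup 𝔫 u') : InLevelGroup 𝔫 (u * u') := by
  refine ⟨trivInf_mul209 hu.1 hu'.1, fun v i j => ⟨?_, ?_⟩⟩
  · rw [finComp_mul209]
    exact mem_mul_idealClosure209 𝔫 v (fun i j => (hu.2 v i j).1) (fun i j => (hu'.2 v i j).1) i j
  · rw [mul_inv_rev, finComp_mul209]
    exact mem_mul_idealClosure209 𝔫 v (fun i j => (hu'.2 v i j).2) (fun i j => (hu.2 v i j).2) i j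

theorem inLevelGroup_mono209 {𝔫 𝔫₀ : Ideal (𝓞 K)} (h : 𝔫 ≤ 𝔫₀) {u : G K}
    (hu : InLevelGroup 𝔫 u) : InLevelGroup 𝔫₀ u :=
  ⟨hu.1, fun v i j =>
    ⟨closure_mono (Set.image_mono h) (hu.2 v i j).1,
      closure_mono (Set.image_mono h) (hu.2 v i j).2⟩⟩

/-- `𝔫 𝒪_v` is contained in the maximal ideal if `v ∣ 𝔫`. -/
theorem val_lt_one_of_mem_idealClosure209 {𝔫 : Ideal (𝓞 K)} {v : HeightOneSpectrum (𝓞 K)}
    (hv : v.asIdeal ∣ 𝔫) {x : v.adicCompletion K} (hx : x ∈ idealClosure 𝔫 v) :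
    Valued.v x < 1 := by
  obtain ⟨π, hπ⟩ := exists_unif129 v
  have hπ0 : π ≠ 0 := unif_ne_zero129 v hπ
  have hle : 𝔫 ≤ v.asIdeal := Ideal.le_of_dvd hv
  have hcl : IsClosed {y : v.adicCompletion K | y * π⁻¹ ∈ v.adicCompletionIntegers K} := by
    have h1 : IsClosed ((v.adicCompletionIntegers K : Set (v.adicCompletion K))) :=
      Valued.isClosed_valuationSubring _
    exact h1.preimage (continuous_id.mul continuous_const)
  have hsub : (iotaInt724 v) '' (𝔫 : Set (𝓞 K)) ⊆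
      {y : v.adicCompletion K | y * π⁻¹ ∈ v.adicCompletionIntegers K} := by
    rintro _ ⟨r, hr, rfl⟩
    show iotaInt724 v r * π⁻¹ ∈ v.adicCompletionIntegers K
    rw [HeightOneSpectrum.mem_adicCompletionIntegers, map_mul, map_inv₀, hπ, iotaInt724_eq]
    have h1 : Valued.v (algebraMap (𝓞 K) (v.adicCompletion K) r) < 1 :=
      (val_int_lt_one_iff724 v r).2 (hle hr)
    have h2 := withZero_le_exp_neg_one129 h1
    rwa [mul_inv_le_iff₀ WithZero.exp_pos, one_mul]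
  have hmem : x * π⁻¹ ∈ v.adicCompletionIntegers K := closure_minimal hsub hcl hx
  rw [HeightOneSpectrum.mem_adicCompletionIntegers, map_mul, map_inv₀, hπ,
    mul_inv_le_iff₀ WithZero.exp_pos, one_mul] at hmem
  refine lt_of_le_of_lt hmem ?_
  rw [← WithZero.exp_zero, WithZero.exp_lt_exp]
  norm_num

theorem one_apply_mem209 (v : HeightOneSpectrum (𝓞 K)) (i j : Fin 2) :
    (1 : Matrix (Fin 2) (Fin 2) (v.adicCompletion K)) i j ∈ v.adicCompletionIntegers K := by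
  by_cases h : i = j
  · rw [h, Matrix.one_apply_eq]
    exact one_mem _
  · rw [Matrix.one_apply_ne h]
    exact zero_mem _

theorem isIntegralAt_of_sub_one209 {𝔫 : Ideal (𝓞 K)} (v : HeightOneSpectrum (𝓞 K)) {g : G K}
    (h : ∀ i j, (finComp v g - 1) i j ∈ idealClosure 𝔫 v) : IsIntegralAt v g := by
  intro i j
  have e : finComp v g i j = (finComp v g - 1) i j
      + (1 : Matrix (Fin 2) (Fin 2) (v.adicCompletion K)) i j := by
    rw [Matrix.sub_apply, sub_add_cancel]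
  rw [e]
  refine add_mem ?_ (one_apply_mem209 v i j)
  rw [HeightOneSpectrum.mem_adicCompletionIntegers]
  exact val_le_one_of_mem_idealClosure724 v 𝔫 (h i j)

/-- The level group at a place dividing the level lies in the Iwahori subgroup. -/
theorem inIwahori_of_inLevelGroup209 {𝔫 : Ideal (𝓞 K)} {w : HeightOneSpectrum (𝓞 K)}
    (hw : w.asIdeal ∣ 𝔫) {u : G K} (hu : InLevelGroup 𝔫 u) : T5.InIwahori w u := by
  refine ⟨isIntegralAt_of_sub_one209 w fun i j => (hu.2 w i j).1,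
    isIntegralAt_of_sub_one209 w fun i j => (hu.2 w i j).2, ?_⟩
  have e : finComp w u 1 0 = (finComp w u - 1) 1 0 := by
    rw [Matrix.sub_apply, Matrix.one_apply_ne (by decide), sub_zero]
  rw [e]
  exact val_lt_one_of_mem_idealClosure209 hw (hu.2 w 1 0).1

/-! ## Central elements -/

theorem central_of_scalarUnif209 {v : HeightOneSpectrum (𝓞 K)} {z : G K}
    (hz : IsScalarUniformizerAt v z) (g : G K) : z * g = g * z := by
  obtain ⟨hloc, c, -, hc⟩ := hz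
  rw [isLocalAtFin_iff129] at hloc
  apply G_ext129
  · intro w
    rw [map_mul, map_mul, hloc.1 w, one_mul, mul_one]
  · intro v'
    by_cases e : v' = v
    · subst e
      rw [map_mul, map_mul]
      apply Units.ext
      show finComp v' z * finComp v' g = finComp v' g * finComp v' z
      rw [hc]
      ext i j
      simp [Matrix.diagonal_mul, Matrix.mul_diagonal, mul_comm]
    · rw [map_mul, map_mul, hloc.2 v' e, one_mul, mul_one]

theorem central_zpow209 {z : G K} (hz : ∀ g : G K, z * g = g * z) (k : ℤ) (g : G K) :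
    z ^ k * g = g * z ^ k :=
  (Commute.zpow_left (show Commute z g from hz g) k).eq

theorem central_inv209 {z : G K} (hz : ∀ g : G K, z * g = g * z) (g : G K) :
    z⁻¹ * g = g * z⁻¹ :=
  (Commute.inv_left (show Commute z g from hz g)).eq

/-! ## Left invariance -/

/-- The left half of `H893.IsUInv`. -/
def IsLInv209 (𝔫₀ : Ideal (𝓞 K)) (l : ℕ) (o : ℕ → HeightOneSpectrum (𝓞 K)) (φ : G K → ℂ) :
    Prop :=
  (∀ u : G K, InLevelGroup 𝔫₀ u → ∀ y : G K, φ (u * y) = φ y) ∧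
    ∀ h : G K, (∀ w : InfinitePlace K, TrivAtInf w h) →
      (∀ v : HeightOneSpectrum (𝓞 K), (∀ j < l, v ≠ o j) → TrivAtFin v h) →
      (∀ j < l, T5.InIwahori (o j) h) → ∀ y : G K, φ (h * y) = φ y

theorem isLInv_of_isUInv209 {𝔫₀ : Ideal (𝓞 K)} {l : ℕ} {o : ℕ → HeightOneSpectrum (𝓞 K)}
    {φ : G K → ℂ} (h : H893.IsUInv 𝔫₀ l o φ) : IsLInv209 𝔫₀ l o φ :=
  ⟨fun u hu y => (h.1 u hu y).1, fun g h1 h2 h3 y => (h.2 g h1 h2 h3 y).1⟩

theorem isLInv_ltr_central209 {𝔫₀ : Ideal (𝓞 K)} {l : ℕ} {o : ℕ → HeightOneSpectrum (𝓞 K)}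
    {φ : G K → ℂ} {z : G K} (hz : ∀ g : G K, z * g = g * z) (h : IsLInv209 𝔫₀ l o φ) :
    IsLInv209 𝔫₀ l o (H893.ltr z φ) := by
  refine ⟨fun u hu y => ?_, fun g h1 h2 h3 y => ?_⟩
  · rw [ltr_apply209, ltr_apply209, ← mul_assoc, central_inv209 hz u, mul_assoc, h.1 u hu]
  · rw [ltr_apply209, ltr_apply209, ← mul_assoc, central_inv209 hz g, mul_assoc,
      h.2 g h1 h2 h3]

/-- **The core**: the sum of the left translates over an Iwahori coset system at `w` of a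
function which is left invariant under the Iwahori subgroup at `w` inherits the left invariance
under every `v` whose component at `w` lies in the Iwahori subgroup. -/
theorem lsum_left_inv209 (w : HeightOneSpectrum (𝓞 K)) {H : Finset (G K)}
    (hH : IsIwCosetSystem w H) {φ : G K → ℂ}
    (hloc : ∀ u : G K, IsLocalAtFin w u → T5.InIwahori w u → ∀ y : G K, φ (u * y) = φ y)
    {v : G K} (hvI : T5.InIwahori w v) (hv : ∀ y : G K, φ (v * y) = φ y) (y : G K) :
    H893.lsum H φ (v * y) = H893.lsum H φ y := by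
  -- the function `x ↦ φ x⁻¹`
  have e1 : ∀ t : G K, H893.lsum H φ t = cosetOp H (fun x => φ x⁻¹) t⁻¹ := by
    intro t
    rw [lsum_apply209]
    show _ = ∑ h ∈ H, φ (t⁻¹ * h)⁻¹
    refine Finset.sum_congr rfl fun h _ => ?_
    rw [mul_inv_rev, inv_inv]
  have hφc : H83.IsIwInvAt w (fun x => φ x⁻¹) := by
    intro u hu hI x
    show φ (x * u)⁻¹ = φ x⁻¹
    rw [mul_inv_rev]
    exact hloc u⁻¹ (isLocalAtFin_inv129 hu) (H83.inIwahori_inv83 w hI) x⁻¹
  -- the local part of `v`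
  have hv₁loc : IsLocalAtFin w (locFin129 w (finCompHom129 w v)) := isLocalAtFin_locFin129 w _
  have hv₁I : T5.InIwahori w (locFin129 w (finCompHom129 w v)) := by
    refine H83.inIwahori_congr83 w ?_ hvI
    rw [finComp_locFin129]
    rfl
  have hv₂ : TrivAtFin w ((locFin129 w (finCompHom129 w v))⁻¹ * v) := by
    rw [trivAtFin_iff129, map_mul, map_inv, finCompHom129_locFin129, inv_mul_cancel]
  have hv₂' : TrivAtFin w ((locFin129 w (finCompHom129 w v))⁻¹ * v)⁻¹ := by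
    rw [trivAtFin_iff129] at hv₂ ⊢
    rw [map_inv, hv₂, inv_one]
  have hφv₂ : ∀ t : G K, φ ((locFin129 w (finCompHom129 w v))⁻¹ * v * t) = φ t := by
    intro t
    rw [mul_assoc, hloc _ (isLocalAtFin_inv129 hv₁loc) (H83.inIwahori_inv83 w hv₁I), hv]
  have hsplit : (v * y)⁻¹
      = y⁻¹ * ((locFin129 w (finCompHom129 w v))⁻¹ * v)⁻¹
        * (locFin129 w (finCompHom129 w v))⁻¹ := by
    group
  rw [e1, e1, hsplit,
    H83.cosetOp_isIwInvAt83 w hH hφc _ (isLocalAtFin_inv129 hv₁loc)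
      (H83.inIwahori_inv83 w hv₁I),
    H83.cosetOp_mul_right83 w (fun h hh => (hH.2.1 h hh).1) hv₂']
  congr 1
  funext t
  show φ (t * ((locFin129 w (finCompHom129 w v))⁻¹ * v)⁻¹)⁻¹ = φ t⁻¹
  rw [mul_inv_rev, inv_inv]
  exact hφv₂ t⁻¹

theorem isLInv_iwL209 {𝔫₀ : Ideal (𝓞 K)} {l : ℕ} {o : ℕ → HeightOneSpectrum (𝓞 K)}
    (hl : 0 < l) (ho : (o 0).asIdeal ∣ 𝔫₀) {H : Finset (G K)} (hH : IsIwCosetSystem (o 0) H)
    {φ : G K → ℂ} (h : IsLInv209 𝔫₀ l o φ) : IsLInv209 𝔫₀ l o (H893.iwL (o 0) H φ) := by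
  have hloc : ∀ u : G K, IsLocalAtFin (o 0) u → T5.InIwahori (o 0) u →
      ∀ y : G K, φ (u * y) = φ y := by
    intro u hu hI y
    refine h.2 u hu.1 (fun v hv => hu.2 v (hv 0 hl)) (fun j _ => ?_) y
    by_cases e : o j = o 0
    · rw [e]
      exact hI
    · exact H83.inIwahori_of_trivAtFin83 (o j) (hu.2 (o j) e)
  have key : ∀ v : G K, T5.InIwahori (o 0) v → (∀ y : G K, φ (v * y) = φ y) →
      ∀ y : G K, H893.iwL (o 0) H φ (v * y) = H893.iwL (o 0) H φ y := by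
    intro v hvI hv y
    rw [iwL_eq209]
    show _ * H893.lsum H φ (v * y) = _ * H893.lsum H φ y
    rw [lsum_left_inv209 (o 0) hH hloc hvI hv y]
  exact ⟨fun u hu => key u (inIwahori_of_inLevelGroup209 ho hu) (h.1 u hu),
    fun g h1 h2 h3 => key g (h3 0 hl) (h.2 g h1 h2 h3)⟩

theorem isLInv_iwL_iterate209 {𝔫₀ : Ideal (𝓞 K)} {l : ℕ} {o : ℕ → HeightOneSpectrum (𝓞 K)}
    (hl : 0 < l) (ho : (o 0).asIdeal ∣ 𝔫₀) {H : Finset (G K)} (hH : IsIwCosetSystem (o 0) H)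
    {φ : G K → ℂ} (h : IsLInv209 𝔫₀ l o φ) (m : ℕ) :
    IsLInv209 𝔫₀ l o ((H893.iwL (o 0) H)^[m] φ) := by
  induction m with
  | zero => exact h
  | succ m ih =>
    rw [Function.iterate_succ_apply']
    exact isLInv_iwL209 hl ho hH ih

theorem isLInv_regL209 {𝔫₀ : Ideal (𝓞 K)} {l : ℕ} {o : ℕ → HeightOneSpectrum (𝓞 K)}
    (hl : 0 < l) (ho : (o 0).asIdeal ∣ 𝔫₀) {H : Finset (G K)} (hH : IsIwCosetSystem (o 0) H)
    {z : G K} (hz : IsScalarUniformizerAt (o 0) z) (k : ℤ) (m : ℕ)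
    {φ : G K → ℂ} (h : IsLInv209 𝔫₀ l o φ) :
    IsLInv209 𝔫₀ l o (H893.regL (o 0) z H k m φ) := by
  rw [regL_eq209]
  exact isLInv_ltr_central209 (central_zpow209 (central_of_scalarUnif209 hz) k)
    (isLInv_iwL_iterate209 hl ho hH h m)

/-! ## The double coset -/

open scoped Classical in
/-- `lsum Hg χ` is left invariant under `U(𝔫₀)` if `χ` is and `Hg` represents
`U(𝔫₀) g U(𝔫₀) / U(𝔫₀)`. -/
theorem lsum_dbl_left_inv209 {𝔫₀ : Ideal (𝓞 K)} {g : G K} {Hg : Finset (G K)}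
    (hsys : IsDblCosetSystem 𝔫₀ g Hg) {χ : G K → ℂ}
    (hχ : ∀ u : G K, InLevelGroup 𝔫₀ u → ∀ y : G K, χ (u * y) = χ y)
    {v : G K} (hv : InLevelGroup 𝔫₀ v) (y : G K) :
    H893.lsum Hg χ (v * y) = H893.lsum Hg χ y := by
  obtain ⟨hrep, hdist, hcov⟩ := hsys
  have hex : ∀ h : G K, ∃ h' : G K, h ∈ Hg → h' ∈ Hg ∧ InLevelGroup 𝔫₀ (h'⁻¹ * (v⁻¹ * h)) := by
    intro h
    by_cases hh : h ∈ Hg
    · obtain ⟨u₁, u₂, hu₁, hu₂, rfl⟩ := hrep h hh
      obtain ⟨h', hh', hI⟩ := hcov (v⁻¹ * u₁) (inLevelGroup_mul209 (inLevelGroup_inv209 hv) hu₁)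
      refine ⟨h', fun _ => ⟨hh', ?_⟩⟩
      have e : h'⁻¹ * (v⁻¹ * (u₁ * g * u₂)) = h'⁻¹ * (v⁻¹ * u₁ * g) * u₂ := by group
      rw [e]
      exact inLevelGroup_mul209 hI hu₂
    · exact ⟨1, fun h0 => (hh h0).elim⟩
  choose σ hσ using hex
  have hinj : Set.InjOn σ (Hg : Set (G K)) := by
    intro a ha b hb e
    by_contra hne
    apply hdist a ha b hb hne
    have h1 := (hσ a ha).2
    have h2 := (hσ b hb).2
    rw [← e] at h2
    have := inLevelGroup_mul209 (inLevelGroup_inv209 h1) h2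
    have e' : ((σ a)⁻¹ * (v⁻¹ * a))⁻¹ * ((σ a)⁻¹ * (v⁻¹ * b)) = a⁻¹ * b := by group
    rwa [e'] at this
  have himg : Hg.image σ = Hg := by
    apply Finset.eq_of_subset_of_card_le
    · intro x hx
      obtain ⟨h, hh, rfl⟩ := Finset.mem_image.mp hx
      exact (hσ h hh).1
    · rw [Finset.card_image_of_injOn hinj]
  rw [lsum_apply209, lsum_apply209]
  conv_rhs => rw [← himg, Finset.sum_image hinj]
  refine Finset.sum_congr rfl fun h hh => ?_
  have e : h⁻¹ * (v * y) = (((σ h)⁻¹ * (v⁻¹ * h))⁻¹) * ((σ h)⁻¹ * y) := by group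
  rw [e, hχ _ (inLevelGroup_inv209 (hσ h hh).2)]

end Fermat.Agent.LT.T7.H209

end
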