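import Fermat.Agent.LT.T7.H209.LtrTop
import Fermat.Agent.LT.T7.H732.SupplyQFamSpec

/-!
# Row LT, tower T7, LEAF T7.L2Q.1.F1 `EkProdUpQC732` (helper209, registry row 2314)

OFF-MAIN.  `ekProdUpQC209 F : H732.EkProdUpQC732 F` VERBATIM, UNCONDITIONAL (the convolution of
test functions is a test function by `H872.isTestFn_conv872` of helper872).

Spec: `T7/H732/SupplyQFamSpec.lean` (helper732@d2eb0c98b, sha256 7e4f04b4), byte-identical copy.
Proof: `isEKProd_up209` (`LtrTop.lean`) with `l = 2`; only the fields upstairs of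
`IsL2QPre732` / `IsL2QBase962` are used.
-/

set_option autoImplicit false

open AutomorphicForm IsDedekindDomain NumberField MeasureTheory
open scoped ComplexConjugate

noncomputable section

namespace Fermat.Agent.LT.T7.H209

open Fermat.Agent.LT.H556 Fermat.Agent.LT.H556.A0 Fermat.Agent.LT.T7 Fermat.Agent.LT.T7.L2Q
  Fermat.Agent.LT.T7.H893 Fermat.Agent.LT.T7.H962 Fermat.Agent.LT.T7.H732

attribute [local instance] Fermat.Agent.LT.T5.instMeasurableSpaceG

/-- The extension of a nonzero ideal of `ℚ` is nonzero. -/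
theorem upI_ne_botQ209 {F : Type} [Field F] [NumberField F] {𝔫 : Ideal (𝓞 ℚ)} (h : 𝔫 ≠ ⊥) :
    upI (K' := F) 𝔫 ≠ ⊥ := by
  intro h0
  apply h
  have h1 : Ideal.map (algebraMap (𝓞 ℚ) (𝓞 F)) 𝔫 = ⊥ := h0
  rwa [Ideal.map_eq_bot_iff_of_injective (FaithfulSMul.algebraMap_injective (𝓞 ℚ) (𝓞 F))] at h1

/-- **LEAF T7.L2Q.1.F1 = EKPROD-UP over `F`** (registry row 2314). -/
theorem ekProdUpQC209 (F : Type) [Field F] [NumberField F] : EkProdUpQC732 F := by
  intro Φ B hB g hg E hE X k m hX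
  exact isEKProd_up209 hB.frame' (upI_ne_botQ209 hE.level_ne) hE.level_g (l := 2) (by norm_num)
    ((hB.mem_S' (B.o 0)).1 (hB.orbit_level 0)) hg.1 hE.sysg hE.sys' hE.unif'
    (hE.up1_test X hX) (hE.up1_ek X hX) hE.up2_test hE.up2_ek hE.up2_inv k m

end Fermat.Agent.LT.T7.H209

end
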