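import Fermat.Agent.LT.T7.H893.SupplyFamSpec
import Fermat.Agent.LT.T7.H32.EKProd

/-!
# Row LT, tower T7, leaves EKPROD-UP (helper209): left translates of Eisenstein-killing functions

OFF-MAIN, ADDITIVE (all names end in `209`).  Vocabulary: `T5/Spec.lean` v4, `T7/Level2.lean`,
`T7/H893/SupplyFamSpec.lean` (`ltr`, `lsum`, `iwL`, `regL`).  Nothing assumed.

`IsEKC209 μ φ`: `φ` is continuous with compact support, Eisenstein-killing with
Eisenstein-killing adjoint.  This class is stable under left translation, finite sums and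
scalar multiples, hence under `lsum`, `iwL`, the iterates of `iwL` and `regL`.
-/

set_option autoImplicit false

open AutomorphicForm IsDedekindDomain NumberField MeasureTheory
open scoped ComplexConjugate

noncomputable section

namespace Fermat.Agent.LT.T7.H209

open Fermat.Agent.LT.H556 Fermat.Agent.LT.H556.A0 Fermat.Agent.LT.T7

attribute [local instance] Fermat.Agent.LT.T5.instMeasurableSpaceG

variable {K : Type} [Field K] [NumberField K]

/-! ## The definitions, pointwise (by `rfl`) -/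

theorem ltr_apply209 (b : G K) (φ : G K → ℂ) (y : G K) : H893.ltr b φ y = φ (b⁻¹ * y) := rfl

theorem lsum_apply209 (H : Finset (G K)) (φ : G K → ℂ) (y : G K) :
    H893.lsum H φ y = ∑ h ∈ H, φ (h⁻¹ * y) := rfl

theorem lsum_eq_sum_ltr209 (H : Finset (G K)) (φ : G K → ℂ) :
    H893.lsum H φ = fun y => ∑ h ∈ H, H893.ltr h φ y := rfl

theorem iwL_eq209 (w : HeightOneSpectrum (𝓞 K)) (H : Finset (G K)) (φ : G K → ℂ) :
    H893.iwL w H φ
      = fun y => ((Real.sqrt (Ideal.absNorm w.asIdeal : ℝ) : ℝ) : ℂ)⁻¹ * H893.lsum H φ y := rfl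

theorem regL_eq209 (w : HeightOneSpectrum (𝓞 K)) (z : G K) (H : Finset (G K)) (k : ℤ) (m : ℕ)
    (φ : G K → ℂ) : H893.regL w z H k m φ = H893.ltr (z ^ k) ((H893.iwL w H)^[m] φ) := rfl

theorem Rconv_apply209 (μ : Measure (G K)) (φ e : G K → ℂ) (x : G K) :
    T5.Rconv μ φ e x = ∫ y, φ y * e (x * y) ∂μ := rfl

theorem adjointFn_apply209 (φ : G K → ℂ) (g : G K) : T5.adjointFn φ g = conj (φ g⁻¹) := rfl

/-! ## The class -/

/-- Continuous, compact support, Eisenstein-killing with Eisenstein-killing adjoint. -/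
def IsEKC209 (μ : Measure (G K)) (φ : G K → ℂ) : Prop :=
  Continuous φ ∧ HasCompactSupport φ ∧ T5.IsEK μ φ ∧ T5.IsEK μ (T5.adjointFn φ)

variable {μ : Measure (G K)} {F : Set (G K)}

theorem borelSpaceG209 (K : Type) [Field K] [NumberField K] : BorelSpace (G K) := ⟨rfl⟩

/-- The measure of a frame is right invariant. -/
theorem isMulRightInvariant209 (hF : T5.IsFrame μ F) : μ.IsMulRightInvariant := by
  have : BorelSpace (G K) := borelSpaceG209 K
  refine ⟨fun g => Measure.ext fun A hA => ?_⟩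
  rw [Measure.map_apply (measurable_mul_const g) hA]
  exact hF.right_inv g A hA

/-- A right translate of a Borel-invariant function is Borel-invariant. -/
theorem isBorelInvariantFn_rtr209 {Ψ : G K → ℂ} (hΨ : T5.IsBorelInvariantFn Ψ) (b : G K) :
    T5.IsBorelInvariantFn (fun g => Ψ (g * b)) := by
  refine ⟨hΨ.cont.comp (continuous_id.mul continuous_const), ?_, ?_, ?_⟩
  · intro n x hn g
    show Ψ (n * g * b) = Ψ (g * b)
    rw [mul_assoc, hΨ.unip n x hn]
  · intro t a c ht g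
    show Ψ (T5.ratG t * g * b) = Ψ (g * b)
    rw [mul_assoc, hΨ.torus t a c ht]
  · obtain ⟨r, hr, hΨr⟩ := hΨ.ray
    refine ⟨r, hr, fun g => ?_⟩
    show Ψ (g * r * b) = Ψ (g * b)
    rw [mul_assoc, T5.H277.ray_comm277 hr b, ← mul_assoc, hΨr]

/-! ## Left translates -/

theorem continuous_ltr209 (b : G K) {φ : G K → ℂ} (h : Continuous φ) :
    Continuous (H893.ltr b φ) :=
  h.comp (continuous_const.mul continuous_id)

theorem hasCompactSupport_ltr209 (b : G K) {φ : G K → ℂ} (h : HasCompactSupport φ) :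
    HasCompactSupport (H893.ltr b φ) :=
  h.comp_homeomorph (Homeomorph.mulLeft b⁻¹)

theorem isEK_ltr209 (hF : T5.IsFrame μ F) (b : G K) {φ : G K → ℂ} (h : T5.IsEK μ φ) :
    T5.IsEK μ (H893.ltr b φ) := by
  have : BorelSpace (G K) := borelSpaceG209 K
  have := hF.haar
  intro Ψ hΨ x
  have h1 := h Ψ hΨ (x * b)
  rw [Rconv_apply209] at h1 ⊢
  rw [← h1, ← integral_mul_left_eq_self (μ := μ) (fun y => H893.ltr b φ y * Ψ (x * y)) b]
  congr 1
  funext y
  rw [ltr_apply209, inv_mul_cancel_left, mul_assoc]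

theorem adjointFn_ltr209 (b : G K) (φ : G K → ℂ) :
    T5.adjointFn (H893.ltr b φ) = fun g => T5.adjointFn φ (g * b) := by
  funext g
  rw [adjointFn_apply209, adjointFn_apply209, ltr_apply209, mul_inv_rev]

theorem isEK_adjoint_ltr209 (hF : T5.IsFrame μ F) (b : G K) {φ : G K → ℂ}
    (h : T5.IsEK μ (T5.adjointFn φ)) : T5.IsEK μ (T5.adjointFn (H893.ltr b φ)) := by
  have : BorelSpace (G K) := borelSpaceG209 K
  have := isMulRightInvariant209 hF
  intro Ψ hΨ x
  have h1 := h _ (isBorelInvariantFn_rtr209 hΨ b⁻¹) x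
  rw [Rconv_apply209] at h1 ⊢
  rw [← h1, ← integral_mul_right_eq_self (μ := μ)
    (fun y => T5.adjointFn φ y * Ψ (x * y * b⁻¹)) b, adjointFn_ltr209]
  congr 1
  funext y
  rw [← mul_assoc x y b, mul_inv_cancel_right]

theorem isEKC_ltr209 (hF : T5.IsFrame μ F) (b : G K) {φ : G K → ℂ} (h : IsEKC209 μ φ) :
    IsEKC209 μ (H893.ltr b φ) :=
  ⟨continuous_ltr209 b h.1, hasCompactSupport_ltr209 b h.2.1, isEK_ltr209 hF b h.2.2.1,
    isEK_adjoint_ltr209 hF b h.2.2.2⟩

/-! ## Finite sums and scalar multiples -/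

theorem hasCompactSupport_sum209 {ι : Type} (s : Finset ι) (φ : ι → G K → ℂ)
    (h : ∀ i ∈ s, HasCompactSupport (φ i)) :
    HasCompactSupport (fun y => ∑ i ∈ s, φ i y) := by
  classical
  induction s using Finset.induction_on with
  | empty =>
    simp only [Finset.sum_empty]
    exact HasCompactSupport.zero
  | insert a s ha ih =>
    have h1 : HasCompactSupport (φ a) := h a (Finset.mem_insert_self a s)
    have h2 : HasCompactSupport (fun y => ∑ i ∈ s, φ i y) :=
      ih fun i hi => h i (Finset.mem_insert_of_mem hi)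
    have e : (fun y => ∑ i ∈ insert a s, φ i y) = fun y => φ a y + ∑ i ∈ s, φ i y := by
      funext y
      rw [Finset.sum_insert ha]
    rw [e]
    exact h1.add h2

theorem isEK_sum209 (hF : T5.IsFrame μ F) {ι : Type} (s : Finset ι) (φ : ι → G K → ℂ)
    (hc : ∀ i ∈ s, Continuous (φ i)) (hs : ∀ i ∈ s, HasCompactSupport (φ i))
    (h : ∀ i ∈ s, T5.IsEK μ (φ i)) : T5.IsEK μ (fun y => ∑ i ∈ s, φ i y) := by
  have : BorelSpace (G K) := borelSpaceG209 K
  have := hF.haar
  intro Ψ hΨ x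
  rw [Rconv_apply209]
  have e : (fun y => (∑ i ∈ s, φ i y) * Ψ (x * y)) = fun y => ∑ i ∈ s, φ i y * Ψ (x * y) := by
    funext y
    rw [Finset.sum_mul]
  rw [e, integral_finsetSum]
  · refine Finset.sum_eq_zero fun i hi => ?_
    exact h i hi Ψ hΨ x
  · intro i hi
    have c1 : Continuous fun y => φ i y * Ψ (x * y) :=
      (hc i hi).mul (hΨ.cont.comp (continuous_const.mul continuous_id))
    have c2 : HasCompactSupport fun y => φ i y * Ψ (x * y) := (hs i hi).mul_right
    exact c1.integrable_of_hasCompactSupport c2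

theorem adjointFn_sum209 {ι : Type} (s : Finset ι) (φ : ι → G K → ℂ) :
    T5.adjointFn (fun y => ∑ i ∈ s, φ i y) = fun y => ∑ i ∈ s, T5.adjointFn (φ i) y := by
  funext g
  rw [adjointFn_apply209, map_sum]
  rfl

theorem isEKC_sum209 (hF : T5.IsFrame μ F) {ι : Type} (s : Finset ι) (φ : ι → G K → ℂ)
    (h : ∀ i ∈ s, IsEKC209 μ (φ i)) : IsEKC209 μ (fun y => ∑ i ∈ s, φ i y) := by
  refine ⟨continuous_finsetSum s fun i hi => (h i hi).1,
    hasCompactSupport_sum209 s φ fun i hi => (h i hi).2.1,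
    isEK_sum209 hF s φ (fun i hi => (h i hi).1) (fun i hi => (h i hi).2.1)
      (fun i hi => (h i hi).2.2.1), ?_⟩
  rw [adjointFn_sum209]
  exact isEK_sum209 hF s _ (fun i hi => T5.H32.continuous_adjointFn32 (h i hi).1)
    (fun i hi => T5.H32.hasCompactSupport_adjointFn32 (h i hi).2.1)
    (fun i hi => (h i hi).2.2.2)

theorem isEK_const_mul209 (c : ℂ) {φ : G K → ℂ} (h : T5.IsEK μ φ) :
    T5.IsEK μ (fun y => c * φ y) := by
  intro Ψ hΨ x
  have h1 := h Ψ hΨ x
  rw [Rconv_apply209] at h1 ⊢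
  have e : (fun y => c * φ y * Ψ (x * y)) = fun y => c * (φ y * Ψ (x * y)) := by
    funext y
    rw [mul_assoc]
  rw [e, integral_const_mul, h1, mul_zero]

theorem adjointFn_const_mul209 (c : ℂ) (φ : G K → ℂ) :
    T5.adjointFn (fun y => c * φ y) = fun y => conj c * T5.adjointFn φ y := by
  funext g
  rw [adjointFn_apply209, map_mul]
  rfl

theorem isEKC_const_mul209 (c : ℂ) {φ : G K → ℂ} (h : IsEKC209 μ φ) :
    IsEKC209 μ (fun y => c * φ y) := by
  refine ⟨continuous_const.mul h.1, ?_, isEK_const_mul209 c h.2.2.1, ?_⟩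
  · exact h.2.1.mul_left (f := fun _ => c)
  · rw [adjointFn_const_mul209]
    exact isEK_const_mul209 _ h.2.2.2

/-! ## The operations of `SupplyFamSpec` -/

theorem isEKC_lsum209 (hF : T5.IsFrame μ F) (H : Finset (G K)) {φ : G K → ℂ}
    (h : IsEKC209 μ φ) : IsEKC209 μ (H893.lsum H φ) := by
  rw [lsum_eq_sum_ltr209]
  exact isEKC_sum209 hF H (fun b => H893.ltr b φ) fun b _ => isEKC_ltr209 hF b h

theorem isEKC_iwL209 (hF : T5.IsFrame μ F) (w : HeightOneSpectrum (𝓞 K)) (H : Finset (G K))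
    {φ : G K → ℂ} (h : IsEKC209 μ φ) : IsEKC209 μ (H893.iwL w H φ) := by
  rw [iwL_eq209]
  exact isEKC_const_mul209 _ (isEKC_lsum209 hF H h)

theorem isEKC_iwL_iterate209 (hF : T5.IsFrame μ F) (w : HeightOneSpectrum (𝓞 K))
    (H : Finset (G K)) {φ : G K → ℂ} (h : IsEKC209 μ φ) (m : ℕ) :
    IsEKC209 μ ((H893.iwL w H)^[m] φ) := by
  induction m with
  | zero => exact h
  | succ m ih =>
    rw [Function.iterate_succ_apply']
    exact isEKC_iwL209 hF w H ih

theorem isEKC_regL209 (hF : T5.IsFrame μ F) (w : HeightOneSpectrum (𝓞 K)) (z : G K)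
    (H : Finset (G K)) (k : ℤ) (m : ℕ) {φ : G K → ℂ} (h : IsEKC209 μ φ) :
    IsEKC209 μ (H893.regL w z H k m φ) := by
  rw [regL_eq209]
  exact isEKC_ltr209 hF _ (isEKC_iwL_iterate209 hF w H h m)

end Fermat.Agent.LT.T7.H209

end
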