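import Fermat.Agent.LT.T7.H209.LtrEK
import Fermat.Agent.LT.T7.H83.IwKit

/-!
# Row LT, tower T7, leaves EKPROD-UP (helper209): left translates of test functions

OFF-MAIN, ADDITIVE (all names end in `209`).  Vocabulary: A0, `T5/Spec.lean` v4,
`T7/H893/SupplyFamSpec.lean`; local embeddings of helper129.  Nothing assumed.

`IsRT209 𝔑 φ` = the clauses of `T5.IsTestFn 𝔑 T5.trivType φ` except the left invariance under
the level group.  The class is stable under left translation by elements which are trivial at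
the infinite places, finite sums and scalar multiples.
-/

set_option autoImplicit false

open AutomorphicForm IsDedekindDomain NumberField MeasureTheory
open scoped ComplexConjugate ContDiff

noncomputable section

namespace Fermat.Agent.LT.T7.H209

open Fermat.Agent.LT.H556 Fermat.Agent.LT.H556.A0 Fermat.Agent.LT.T7 Fermat.Agent.LT.H129

attribute [local instance] Fermat.Agent.LT.T5.instMeasurableSpaceG

variable {K : Type} [Field K] [NumberField K]

/-! ## Elements which are trivial at the infinite places -/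

/-- `b` is trivial at every infinite place. -/
def TrivInf209 (b : G K) : Prop := ∀ w : InfinitePlace K, TrivAtInf w b

theorem trivInf_iff209 (b : G K) : TrivInf209 b ↔ ∀ w : InfinitePlace K, infCompHom129 w b = 1 :=
  forall_congr' fun w => trivAtInf_iff129 w b

theorem trivInf_one209 : TrivInf209 (1 : G K) := by
  rw [trivInf_iff209]
  exact fun w => map_one _

theorem trivInf_mul209 {a b : G K} (ha : TrivInf209 a) (hb : TrivInf209 b) :
    TrivInf209 (a * b) := by
  rw [trivInf_iff209] at *
  intro w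
  rw [map_mul, ha w, hb w, mul_one]

theorem trivInf_inv209 {a : G K} (ha : TrivInf209 a) : TrivInf209 a⁻¹ := by
  rw [trivInf_iff209] at *
  intro w
  rw [map_inv, ha w, inv_one]

theorem trivInf_zpow209 {a : G K} (ha : TrivInf209 a) (k : ℤ) : TrivInf209 (a ^ k) := by
  rw [trivInf_iff209] at *
  intro w
  rw [map_zpow, ha w, one_zpow]

theorem trivInf_of_isLocalAtFin209 {v : HeightOneSpectrum (𝓞 K)} {a : G K}
    (ha : IsLocalAtFin v a) : TrivInf209 a := ha.1

theorem trivInf_of_inLevelGroup209 {𝔫 : Ideal (𝓞 K)} {a : G K} (ha : InLevelGroup 𝔫 a) :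
    TrivInf209 a := ha.1

/-- An element which is trivial at infinity commutes with the elements supported at an infinite
place. -/
theorem comm_of_trivInf209 {b k : G K} (hb : TrivInf209 b) {w : InfinitePlace K}
    (hk : IsLocalAtInf w k) : b * k = k * b := by
  rw [trivInf_iff209] at hb
  apply G_ext129
  · intro w'
    rw [map_mul, map_mul, hb w', one_mul, mul_one]
  · intro v
    have hv : finCompHom129 v k = 1 := (trivAtFin_iff129 v k).1 (hk.2 v)
    rw [map_mul, map_mul, hv, one_mul, mul_one]

/-! ## Test functions without the left invariance under the level group -/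

/-- The clauses of `T5.IsTestFn 𝔑 T5.trivType φ` except `level_left`. -/
structure IsRT209 (𝔑 : Ideal (𝓞 K)) (φ : G K → ℂ) : Prop where
  cont : Continuous φ
  supp : HasCompactSupport φ
  smooth : T5.IsSmoothAtInf φ
  level_right : ∀ u : G K, InLevelGroup 𝔑 u → ∀ g : G K, φ (g * u) = φ g
  arch_right : ∀ (w : InfinitePlace K) (k : G K), IsArchCompact w k → ∀ g : G K, φ (g * k) = φ g
  arch_left : ∀ (w : InfinitePlace K) (k : G K), IsArchCompact w k → ∀ g : G K, φ (k * g) = φ g

theorem trivType_inv209 (k : G K) : ((T5.trivType k : ℂ))⁻¹ = 1 := by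
  show ((1 : ℂ))⁻¹ = 1
  exact inv_one

theorem isRT_of_isTestFn209 {𝔑 : Ideal (𝓞 K)} {φ : G K → ℂ}
    (h : T5.IsTestFn 𝔑 T5.trivType φ) : IsRT209 𝔑 φ where
  cont := h.cont
  supp := h.supp
  smooth := h.smooth
  level_right := h.inv.level_right
  arch_right := fun w k hk g => by
    rw [h.inv.arch_right w k hk g, trivType_inv209, one_mul]
  arch_left := fun w k hk g => by
    rw [h.inv.arch_left w k hk g, trivType_inv209, one_mul]

/-- Assembly: the right half and the left invariance under the level group. -/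
theorem isTestFn_of_isRT209 {𝔑 : Ideal (𝓞 K)} {φ : G K → ℂ} (hk : T5.IsKType (T5.trivType (K := K)))
    (h : IsRT209 𝔑 φ) (hl : ∀ u : G K, InLevelGroup 𝔑 u → ∀ g : G K, φ (u * g) = φ g) :
    T5.IsTestFn 𝔑 T5.trivType φ where
  ktype := hk
  cont := h.cont
  supp := h.supp
  smooth := h.smooth
  inv :=
    { level_right := h.level_right
      level_left := hl
      arch_right := fun w k hk g => by
        rw [h.arch_right w k hk g, trivType_inv209, one_mul]
      arch_left := fun w k hk g => by
        rw [h.arch_left w k hk g, trivType_inv209, one_mul] }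

theorem isRT_ltr209 {𝔑 : Ideal (𝓞 K)} {b : G K} (hb : TrivInf209 b) {φ : G K → ℂ}
    (h : IsRT209 𝔑 φ) : IsRT209 𝔑 (H893.ltr b φ) where
  cont := continuous_ltr209 b h.cont
  supp := hasCompactSupport_ltr209 b h.supp
  smooth := fun n f hf hs g => by
    have := h.smooth n f hf hs (b⁻¹ * g)
    have e : (fun t => H893.ltr b φ (g * f t)) = fun t => φ (b⁻¹ * g * f t) := by
      funext t
      rw [ltr_apply209, mul_assoc]
    rw [e]
    exact this
  level_right := fun u hu g => by
    rw [ltr_apply209, ltr_apply209, ← mul_assoc, h.level_right u hu]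
  arch_right := fun w k hk g => by
    rw [ltr_apply209, ltr_apply209, ← mul_assoc, h.arch_right w k hk]
  arch_left := fun w k hk g => by
    rw [ltr_apply209, ltr_apply209, ← mul_assoc, comm_of_trivInf209 (trivInf_inv209 hb) hk.1,
      mul_assoc, h.arch_left w k hk]

theorem isRT_sum209 {𝔑 : Ideal (𝓞 K)} {ι : Type} (s : Finset ι) (φ : ι → G K → ℂ)
    (h : ∀ i ∈ s, IsRT209 𝔑 (φ i)) : IsRT209 𝔑 (fun y => ∑ i ∈ s, φ i y) where
  cont := continuous_finsetSum s fun i hi => (h i hi).cont
  supp := hasCompactSupport_sum209 s φ fun i hi => (h i hi).supp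
  smooth := fun n f hf hs g =>
    ContDiff.sum fun i hi => (h i hi).smooth n f hf hs g
  level_right := fun u hu g =>
    Finset.sum_congr rfl fun i hi => (h i hi).level_right u hu g
  arch_right := fun w k hk g =>
    Finset.sum_congr rfl fun i hi => (h i hi).arch_right w k hk g
  arch_left := fun w k hk g =>
    Finset.sum_congr rfl fun i hi => (h i hi).arch_left w k hk g

theorem isRT_const_mul209 {𝔑 : Ideal (𝓞 K)} (c : ℂ) {φ : G K → ℂ} (h : IsRT209 𝔑 φ) :
    IsRT209 𝔑 (fun y => c * φ y) where
  cont := continuous_const.mul h.cont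
  supp := h.supp.mul_left (f := fun _ => c)
  smooth := fun n f hf hs g => contDiff_const.mul (h.smooth n f hf hs g)
  level_right := fun u hu g => by
    show c * φ (g * u) = c * φ g
    rw [h.level_right u hu]
  arch_right := fun w k hk g => by
    show c * φ (g * k) = c * φ g
    rw [h.arch_right w k hk]
  arch_left := fun w k hk g => by
    show c * φ (k * g) = c * φ g
    rw [h.arch_left w k hk]

theorem isRT_lsum209 {𝔑 : Ideal (𝓞 K)} {H : Finset (G K)} (hH : ∀ h ∈ H, TrivInf209 h)
    {φ : G K → ℂ} (h : IsRT209 𝔑 φ) : IsRT209 𝔑 (H893.lsum H φ) := by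
  rw [lsum_eq_sum_ltr209]
  exact isRT_sum209 H (fun b => H893.ltr b φ) fun b hb => isRT_ltr209 (hH b hb) h

theorem isRT_iwL209 {𝔑 : Ideal (𝓞 K)} (w : HeightOneSpectrum (𝓞 K)) {H : Finset (G K)}
    (hH : ∀ h ∈ H, TrivInf209 h) {φ : G K → ℂ} (h : IsRT209 𝔑 φ) :
    IsRT209 𝔑 (H893.iwL w H φ) := by
  rw [iwL_eq209]
  exact isRT_const_mul209 _ (isRT_lsum209 hH h)

theorem isRT_iwL_iterate209 {𝔑 : Ideal (𝓞 K)} (w : HeightOneSpectrum (𝓞 K))
    {H : Finset (G K)} (hH : ∀ h ∈ H, TrivInf209 h) {φ : G K → ℂ} (h : IsRT209 𝔑 φ) (m : ℕ) :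
    IsRT209 𝔑 ((H893.iwL w H)^[m] φ) := by
  induction m with
  | zero => exact h
  | succ m ih =>
    rw [Function.iterate_succ_apply']
    exact isRT_iwL209 w hH ih

theorem isRT_regL209 {𝔑 : Ideal (𝓞 K)} (w : HeightOneSpectrum (𝓞 K)) {z : G K}
    (hz : TrivInf209 z) {H : Finset (G K)} (hH : ∀ h ∈ H, TrivInf209 h) (k : ℤ) (m : ℕ)
    {φ : G K → ℂ} (h : IsRT209 𝔑 φ) : IsRT209 𝔑 (H893.regL w z H k m φ) := by
  rw [regL_eq209]
  exact isRT_ltr209 (trivInf_zpow209 hz k) (isRT_iwL_iterate209 w hH h m)

end Fermat.Agent.LT.T7.H209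

end
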