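import Fermat.Agent.LT.T7.H209.LtrInv
import Fermat.Agent.LT.T7.H872.ConvTest

/-!
# Row LT, tower T7, leaves EKPROD-UP (helper209): the generic statement

OFF-MAIN, ADDITIVE (all names end in `209`).  Nothing assumed.

    isEKTest_lsum_regL209 : lsum Hg (regL (o 0) z' H' k m φ₂) is an Eisenstein-killing test
                            function of level `𝔑 ≤ 𝔑₀` with Eisenstein-killing adjoint
    isEKProd_up209        : IsEKProd 𝔑 R (Φ₁ ⋆ lsum Hg (regL (o 0) z' H' k m φ₂))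

for ONE number field, a frame, levels `𝔑 ≤ 𝔑₀`, `𝔑 ≠ 0`, an orbit `o` of length `l > 0` with
`o 0 ∣ 𝔑₀`, `g` trivial at infinity, a system `Hg` of representatives of
`U(𝔑₀) g U(𝔑₀) / U(𝔑₀)`, an Iwahori coset system `H'` and a scalar uniformiser `z'` at `o 0`,
`φ₂` an Eisenstein-killing test function of level `𝔑` with `H893.IsUInv 𝔑₀ l o φ₂`.
(`H893.EkProdUpC`, `H732.EkProdUpQC732` are instances; the convolution of test functions is a
test function by `H872.isTestFn_conv872`.)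
-/

set_option autoImplicit false

open AutomorphicForm IsDedekindDomain NumberField MeasureTheory
open scoped ComplexConjugate

noncomputable section

namespace Fermat.Agent.LT.T7.H209

open Fermat.Agent.LT.H556 Fermat.Agent.LT.H556.A0 Fermat.Agent.LT.T7

attribute [local instance] Fermat.Agent.LT.T5.instMeasurableSpaceG

variable {K : Type} [Field K] [NumberField K]

/-- **The second factor of the members upstairs** is an Eisenstein-killing test function with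
Eisenstein-killing adjoint. -/
theorem isEKTest_lsum_regL209 {μ : Measure (G K)} {F : Set (G K)} (hF : T5.IsFrame μ F)
    {𝔑 𝔑₀ : Ideal (𝓞 K)} (h𝔑 : 𝔑 ≤ 𝔑₀) {l : ℕ} (hl : 0 < l)
    {o : ℕ → HeightOneSpectrum (𝓞 K)} (ho : (o 0).asIdeal ∣ 𝔑₀)
    {g : G K} (hg : ∀ w : InfinitePlace K, TrivAtInf w g) {Hg : Finset (G K)}
    (hsys : IsDblCosetSystem 𝔑₀ g Hg) {H' : Finset (G K)} (hH' : IsIwCosetSystem (o 0) H')
    {z' : G K} (hz' : IsScalarUniformizerAt (o 0) z') {φ₂ : G K → ℂ}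
    (ht : T5.IsTestFn 𝔑 T5.trivType φ₂)
    (hek : T5.IsEK μ φ₂ ∧ T5.IsEK μ (T5.adjointFn φ₂))
    (hinv : H893.IsUInv 𝔑₀ l o φ₂) (k : ℤ) (m : ℕ) :
    H32.IsEKTest32 𝔑 μ (H893.lsum Hg (H893.regL (o 0) z' H' k m φ₂)) := by
  have hHgT : ∀ h ∈ Hg, TrivInf209 h := by
    intro h hh
    obtain ⟨u₁, u₂, hu₁, hu₂, rfl⟩ := hsys.1 h hh
    exact trivInf_mul209 (trivInf_mul209 hu₁.1 hg) hu₂.1
  have hH'T : ∀ h ∈ H', TrivInf209 h := fun h hh => (hH'.2.1 h hh).1.1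
  have hz'T : TrivInf209 z' := hz'.1.1
  have hRT : IsRT209 𝔑 (H893.lsum Hg (H893.regL (o 0) z' H' k m φ₂)) :=
    isRT_lsum209 hHgT (isRT_regL209 (o 0) hz'T hH'T k m (isRT_of_isTestFn209 ht))
  have hL : ∀ u : G K, InLevelGroup 𝔑 u → ∀ y : G K,
      H893.lsum Hg (H893.regL (o 0) z' H' k m φ₂) (u * y)
        = H893.lsum Hg (H893.regL (o 0) z' H' k m φ₂) y := fun u hu y =>
    lsum_dbl_left_inv209 hsys
      (isLInv_regL209 hl ho hH' hz' k m (isLInv_of_isUInv209 hinv)).1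
      (inLevelGroup_mono209 h𝔑 hu) y
  have hEK : IsEKC209 μ (H893.lsum Hg (H893.regL (o 0) z' H' k m φ₂)) :=
    isEKC_lsum209 hF Hg (isEKC_regL209 hF (o 0) z' H' k m ⟨ht.cont, ht.supp, hek.1, hek.2⟩)
  exact ⟨isTestFn_of_isRT209 ht.ktype hRT hL, hEK.2.2.1, hEK.2.2.2⟩

/-- **The members upstairs are products of two Eisenstein-killing test functions.** -/
theorem isEKProd_up209 {R : Frame5 K} (hR : IsFrame5 R)
    {𝔑 𝔑₀ : Ideal (𝓞 K)} (hne : 𝔑 ≠ ⊥) (h𝔑 : 𝔑 ≤ 𝔑₀) {l : ℕ} (hl : 0 < l)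
    {o : ℕ → HeightOneSpectrum (𝓞 K)} (ho : (o 0).asIdeal ∣ 𝔑₀)
    {g : G K} (hg : ∀ w : InfinitePlace K, TrivAtInf w g) {Hg : Finset (G K)}
    (hsys : IsDblCosetSystem 𝔑₀ g Hg) {H' : Finset (G K)} (hH' : IsIwCosetSystem (o 0) H')
    {z' : G K} (hz' : IsScalarUniformizerAt (o 0) z') {Φ₁ φ₂ : G K → ℂ}
    (ht₁ : T5.IsTestFn 𝔑 T5.trivType Φ₁)
    (hek₁ : T5.IsEK R.μ Φ₁ ∧ T5.IsEK R.μ (T5.adjointFn Φ₁))
    (ht : T5.IsTestFn 𝔑 T5.trivType φ₂)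
    (hek : T5.IsEK R.μ φ₂ ∧ T5.IsEK R.μ (T5.adjointFn φ₂))
    (hinv : H893.IsUInv 𝔑₀ l o φ₂) (k : ℤ) (m : ℕ) :
    IsEKProd 𝔑 R (T5.conv R.μ Φ₁ (H893.lsum Hg (H893.regL (o 0) z' H' k m φ₂))) :=
  H32.isEKProd_mk32
    (fun _ _ ha hb => H872.isTestFn_conv872 hR.frame.haar hne ha hb)
    ⟨ht₁, hek₁.1, hek₁.2⟩
    (isEKTest_lsum_regL209 hR.frame h𝔑 hl ho hg hsys hH' hz' ht hek hinv k m)

end Fermat.Agent.LT.T7.H209

end
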